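import Fermat.Agent.NewRel.Triv
import Fermat.Agent.HSide.Base

/-!
# The relations on the `p`-new part, for the modules of the Hecke side

`Base.act_newKer`: an element of the Hecke algebra of level `lev qv s * ∏ qv i` which kills the
`p`-new part of the cusp forms kills the kernel of `j1`, `j2` (at `p`) on `B.MM qv s`.
-/

set_option autoImplicit false
set_option linter.unusedSectionVars false

noncomputable section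

open CongruenceSubgroup
open scoped MatrixGroups

namespace Fermat.Agent.NewRel

open IsLocalRing TwHecke HeckePar TwExact HeckeRep GalRep HSide CuspForm RTE RTD
open FermatAgent.HeckeEigen (heckeOp heckeOp_comm)
open Oldforms (ALData)

section General

variable {M M' Q₀ L m p : ℕ} [NeZero M'] [NeZero Q₀] [NeZero L]
  (D : ALData L m p) (hpM : ¬ p ∣ M) (h : M * p = M') (hQM : Q₀ ∣ M) (hQM' : Q₀ ∣ M')
  (hL : M' * Q₀ = L) {S : Set ℕ} (hS : ∀ ℓ : ℕ, ℓ.Prime → ℓ ∣ M' → ℓ ∈ S)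
  {𝒪 : Type} [CommRing 𝒪] [IsDomain 𝒪] [IsDiscreteValuationRing 𝒪]
  [IsAdicComplete (maximalIdeal 𝒪) 𝒪] [Finite (ResidueField 𝒪)] [CharZero 𝒪]
  {Δ : Type} [CommGroup Δ] [Finite Δ] [IsLocalRing (MonoidAlgebra 𝒪 Δ)]
  [IsLocalHom (algebraMap 𝒪 (MonoidAlgebra 𝒪 Δ))]
  (τ₀ : (ZMod Q₀)ˣ →* Δ) [Fact (HasIntegralStructure L 2)]
  {η : (ZMod M)ˣ →* (MonoidAlgebra 𝒪 Δ)ˣ} {η' : (ZMod M')ˣ →* (MonoidAlgebra 𝒪 Δ)ˣ}

include D hL hS in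
/-- `cev_newKer` for characters given up to equality. -/
theorem cev_newKer' (hη0 : η = taut 𝒪 (τ₀.comp (ZMod.unitsMap hQM)))
    (hη0' : η' = taut 𝒪 (τ₀.comp (ZMod.unitsMap hQM')))
    {θ₀ : PIdx S → ResidueField 𝒪} (hne : S41hm.StrongNonEis S θ₀)
    (hη : ∀ u, residue (MonoidAlgebra 𝒪 Δ) (η' u : MonoidAlgebra 𝒪 Δ) = 1)
    (hG : Good M' (η' ^ 2) S (thMap (MonoidAlgebra 𝒪 Δ) θ₀))
    (hηη : infl (Dvd.intro p h) η = η') (hpS : p ∈ S)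
    (t : MvPolynomial (PIdx S) ℤ) (ht : ∀ f ∈ pnew D, opt L t f = 0)
    (x : Hm M' (η' ^ 2) (MonoidAlgebra 𝒪 Δ) S (thMap (MonoidAlgebra 𝒪 Δ) θ₀))
    (h1 : j1 D.hq hpM h hηη (thMap (MonoidAlgebra 𝒪 Δ) θ₀) hpS x = 0)
    (h2 : j2 D.hq hpM h hηη (thMap (MonoidAlgebra 𝒪 Δ) θ₀) hpS x = 0) :
    cev (R := ℤ) (hT η' (η' ^ 2) S (thMap (MonoidAlgebra 𝒪 Δ) θ₀)) (hT_comm _ _ _) t x = 0 := by
  subst hη0 hη0'
  exact cev_newKer D hpM h hQM hQM' hL hS τ₀ hne hη hG hηη hpS t ht x h1 h2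

include D hL hS in
/-- `act_newKer` for characters given up to equality. -/
theorem act_newKer' (hη0 : η = taut 𝒪 (τ₀.comp (ZMod.unitsMap hQM)))
    (hη0' : η' = taut 𝒪 (τ₀.comp (ZMod.unitsMap hQM')))
    {θ₀ : PIdx S → ResidueField 𝒪} (hne : S41hm.StrongNonEis S θ₀)
    (hη : ∀ u, residue (MonoidAlgebra 𝒪 Δ) (η' u : MonoidAlgebra 𝒪 Δ) = 1)
    (hG : Good M' (η' ^ 2) S (thMap (MonoidAlgebra 𝒪 Δ) θ₀))
    (hηη : infl (Dvd.intro p h) η = η') (hpS : p ∈ S) (θ : heckeAlgebra L 2 S →+* ResidueField 𝒪)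
    (act : heckeLocal L S 𝒪 θ →+* Module.End (MonoidAlgebra 𝒪 Δ)
      (Hm M' (η' ^ 2) (MonoidAlgebra 𝒪 Δ) S (thMap (MonoidAlgebra 𝒪 Δ) θ₀)))
    (hact : ∀ ℓ, act (heckeLocal.π L S 𝒪 θ (genS L S ℓ)) =
      hT η' (η' ^ 2) S (thMap (MonoidAlgebra 𝒪 Δ) θ₀) ℓ)
    (a : heckeAlgebra L 2 S)
    (ha : ∀ f ∈ pnew D, (a : Module.End ℂ (CuspForm (Gamma0 L) 2)) f = 0)
    (x : Hm M' (η' ^ 2) (MonoidAlgebra 𝒪 Δ) S (thMap (MonoidAlgebra 𝒪 Δ) θ₀))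
    (h1 : j1 D.hq hpM h hηη (thMap (MonoidAlgebra 𝒪 Δ) θ₀) hpS x = 0)
    (h2 : j2 D.hq hpM h hηη (thMap (MonoidAlgebra 𝒪 Δ) θ₀) hpS x = 0) :
    act (heckeLocal.π L S 𝒪 θ a) x = 0 := by
  subst hη0 hη0'
  exact act_newKer D hpM h hQM hQM' hL hS τ₀ hne hη hG hηη hpS θ act hact a ha x h1 h2

end General

section Inst

variable {𝒪 : Type} [CommRing 𝒪] [IsDomain 𝒪] [IsDiscreteValuationRing 𝒪]
  [IsAdicComplete (maximalIdeal 𝒪) 𝒪] [Finite (ResidueField 𝒪)] [CharZero 𝒪]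
  {p : ℕ} [hp : Fact p.Prime] {ι : Type} {qT : ι → ℕ} {S : Finset ℕ} {B : Base 𝒪 p qT S}
  {k : ℕ} {qv : Fin k → ℕ} [IsLocalRing (Lam 𝒪 p qv)] (A : Auxs B qv) (s : Finset ι)

include A in
theorem prod_dvd_of_mul {M : ℕ} (h : M * p = B.lev qv s) : ∏ i, qv i ∣ M := by
  have h1 : ∏ i, qv i ∣ M * p := by rw [h]; exact Dvd.intro_left _ rfl
  refine Nat.Coprime.dvd_of_dvd_mul_right ?_ h1
  exact ((Nat.Prime.coprime_iff_not_dvd hp.out).mpr (B.not_dvd_prod A hp.out B.pS)).symm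

variable {M m L : ℕ} [NeZero L] (D : ALData L m p) (hpM : ¬ p ∣ M) (h : M * p = B.lev qv s)
  (hL : B.lev qv s * ∏ i, qv i = L)

include A D hL in
/-- **(NEWREL)** on the modules of the Hecke side, polynomial form. -/
theorem Base.cev_newKer {hqM : ∀ i, qv i ∣ M} {η : (ZMod M)ˣ →* (Lam 𝒪 p qv)ˣ}
    (hη : η = taut 𝒪 (tauM p qv M hqM)) (hηη : infl (Dvd.intro p h) η = B.eta qv s)
    (hpS : p ∈ (↑(B.Sn qv) : Set ℕ)) [NeZero (B.lev qv s)]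
    (t : MvPolynomial (PIdx (↑(B.Sn qv) : Set ℕ)) ℤ) (ht : ∀ f ∈ pnew D, opt L t f = 0)
    (x : B.MM qv s) (h1 : j1 D.hq hpM h hηη (B.th qv) hpS x = 0)
    (h2 : j2 D.hq hpM h hηη (B.th qv) hpS x = 0) :
    cev (R := ℤ) (hT (B.eta qv s) (B.eta qv s ^ 2) (↑(B.Sn qv) : Set ℕ) (B.th qv))
      (hT_comm _ _ _) t x = 0 := by
  have hNZ : NeZero (∏ i, qv i) :=
    ⟨Finset.prod_ne_zero_iff.mpr fun i _ => (A.prime i).ne_zero⟩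
  have hp0 : NeZero p := ⟨hp.out.ne_zero⟩
  have hloc : IsLocalHom (algebraMap 𝒪 (Lam 𝒪 p qv)) := HeckeRep.isLocalHom_groupRing
  have hfact : Fact (HasIntegralStructure L 2) := ⟨S23.result L⟩
  have hQM : ∏ i, qv i ∣ M := prod_dvd_of_mul A s h
  have hQM' : ∏ i, qv i ∣ B.lev qv s := hQM.trans (Dvd.intro _ h)
  have hd : ∀ i, qv i ∣ ∏ i, qv i := fun i => Finset.dvd_prod_of_mem qv (Finset.mem_univ i)
  refine cev_newKer' D hpM h hQM hQM' hL (B.lev_mem A s) (tauM p qv (∏ i, qv i) hd)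
    (hη.trans ?_) ?_ (B.ne _ B.S_sub) (B.residue_eta s) (B.good_lev A s) hηη hpS t ht x h1 h2
  · rw [tauM_comp hd hqM hQM]
  · rw [Base.eta, tauM_comp hd (B.qv_dvd s) hQM']

include A D hL in
/-- **(NEWREL)** on the modules of the Hecke side. -/
theorem Base.act_newKer {hqM : ∀ i, qv i ∣ M} {η : (ZMod M)ˣ →* (Lam 𝒪 p qv)ˣ}
    (hη : η = taut 𝒪 (tauM p qv M hqM)) (hηη : infl (Dvd.intro p h) η = B.eta qv s)
    (hpS : p ∈ (↑(B.Sn qv) : Set ℕ)) [NeZero (B.lev qv s)] [Fact (HasIntegralStructure L 2)]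
    (θ : heckeAlgebra L 2 (↑(B.Sn qv) : Set ℕ) →+* ResidueField 𝒪)
    (act : heckeLocal L (↑(B.Sn qv) : Set ℕ) 𝒪 θ →+* Module.End (Lam 𝒪 p qv) (B.MM qv s))
    (hact : ∀ ℓ, act (heckeLocal.π L (↑(B.Sn qv) : Set ℕ) 𝒪 θ (genS L _ ℓ)) =
      hT (B.eta qv s) (B.eta qv s ^ 2) (↑(B.Sn qv) : Set ℕ) (B.th qv) ℓ)
    (a : heckeAlgebra L 2 (↑(B.Sn qv) : Set ℕ))
    (ha : ∀ f ∈ pnew D, (a : Module.End ℂ (CuspForm (Gamma0 L) 2)) f = 0)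
    (x : B.MM qv s) (h1 : j1 D.hq hpM h hηη (B.th qv) hpS x = 0)
    (h2 : j2 D.hq hpM h hηη (B.th qv) hpS x = 0) :
    act (heckeLocal.π L (↑(B.Sn qv) : Set ℕ) 𝒪 θ a) x = 0 := by
  obtain ⟨t, rfl⟩ := exists_evS a
  rw [← RingHom.comp_apply act (heckeLocal.π L _ 𝒪 θ), act_evS (hT_comm _ _ _) _ hact]
  refine Base.cev_newKer A s D hpM h hL hη hηη hpS t (fun f hf => ?_) x h1 h2
  rw [opt, ← val_evS]
  exact ha f hf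

end Inst

section InstBot

variable {𝒪 : Type} [CommRing 𝒪] [IsDomain 𝒪] [IsDiscreteValuationRing 𝒪]
  [IsAdicComplete (maximalIdeal 𝒪) 𝒪] [Finite (ResidueField 𝒪)] [CharZero 𝒪]
  {p : ℕ} [hp : Fact p.Prime] {ι : Type} {qT : ι → ℕ} {S : Finset ℕ} (B : Base 𝒪 p qT S)
  (s : Finset ι) {M m : ℕ} (D : ALData (B.NS s) m p) (hpM : ¬ p ∣ M) (h : M * p = B.NS s)

include D in
/-- **(NEWREL)** on the bottom modules, polynomial form. -/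
theorem Base.cev_newKer₀ (hηη : infl (Dvd.intro p h) (1 : (ZMod M)ˣ →* 𝒪ˣ) = 1)
    (hpS : p ∈ (↑S : Set ℕ)) (t : MvPolynomial (PIdx (↑S : Set ℕ)) ℤ)
    (ht : ∀ f ∈ pnew D, opt (B.NS s) t f = 0)
    (x : B.M0 s) (h1 : j1 D.hq hpM h hηη (thOf B.a (↑S : Set ℕ)) hpS x = 0)
    (h2 : j2 D.hq hpM h hηη (thOf B.a (↑S : Set ℕ)) hpS x = 0) :
    cev (R := ℤ) (hT (1 : (ZMod (B.NS s))ˣ →* 𝒪ˣ) ((1 : (ZMod (B.NS s))ˣ →* 𝒪ˣ) ^ 2)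
      (↑S : Set ℕ) (thOf B.a (↑S : Set ℕ))) (hT_comm _ _ _) t x = 0 :=
  cev_newKer_triv D hpM h (B.NS_mem s) (B.ne S subset_rfl) hηη (B.good_M0 s) hpS t ht x h1 h2

include D in
/-- **(NEWREL)** on the bottom modules. -/
theorem Base.act_newKer₀ (hηη : infl (Dvd.intro p h) (1 : (ZMod M)ˣ →* 𝒪ˣ) = 1)
    (hpS : p ∈ (↑S : Set ℕ)) [Fact (HasIntegralStructure (B.NS s) 2)]
    (θ : heckeAlgebra (B.NS s) 2 (↑S : Set ℕ) →+* ResidueField 𝒪)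
    (act : heckeLocal (B.NS s) (↑S : Set ℕ) 𝒪 θ →+* Module.End 𝒪 (B.M0 s))
    (hact : ∀ ℓ, act (heckeLocal.π (B.NS s) (↑S : Set ℕ) 𝒪 θ (genS (B.NS s) _ ℓ)) =
      hT (1 : (ZMod (B.NS s))ˣ →* 𝒪ˣ) ((1 : (ZMod (B.NS s))ˣ →* 𝒪ˣ) ^ 2) (↑S : Set ℕ)
        (thOf B.a (↑S : Set ℕ)) ℓ)
    (a : heckeAlgebra (B.NS s) 2 (↑S : Set ℕ))
    (ha : ∀ f ∈ pnew D, (a : Module.End ℂ (CuspForm (Gamma0 (B.NS s)) 2)) f = 0)
    (x : B.M0 s) (h1 : j1 D.hq hpM h hηη (thOf B.a (↑S : Set ℕ)) hpS x = 0)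
    (h2 : j2 D.hq hpM h hηη (thOf B.a (↑S : Set ℕ)) hpS x = 0) :
    act (heckeLocal.π (B.NS s) (↑S : Set ℕ) 𝒪 θ a) x = 0 :=
  act_newKer_triv D hpM h (B.NS_mem s) (B.ne S subset_rfl) hηη (B.good_M0 s) hpS θ act hact a ha
    x h1 h2

end InstBot

end Fermat.Agent.NewRel

end
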