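import Fermat.Agent.NewRel.Main

/-!
# The Hecke algebra on the `p`-new part

`act_newKer`: an element of the Hecke algebra of level `M' Q₀` which kills the `p`-new part of
`S₂(Γ₀(M' Q₀))` kills the kernel of `j1` and `j2` on `H¹(Γ₀(M'), 𝒪[Δ](τ²))_𝔪`.
-/

set_option autoImplicit false
set_option linter.unusedSectionVars false

noncomputable section

open CongruenceSubgroup
open scoped MatrixGroups

namespace Fermat.Agent.NewRel

open IsLocalRing TwHecke HeckePar TwExact HeckeRep GalRep HSide CuspForm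
open FermatAgent.HeckeEigen (heckeOp heckeOp_comm)
open Oldforms (ALData)

/-- an element of the Hecke algebra is a polynomial in the Hecke operators. -/
theorem exists_evS {L : ℕ} [NeZero L] {S : Set ℕ} (a : heckeAlgebra L 2 S) :
    ∃ t : MvPolynomial (PIdx S) ℤ, evS L S t = a := S35aux.evS_surjective L S a

/-- ring homomorphisms from the Hecke algebra are given by evaluation. -/
theorem act_evS {L : ℕ} [NeZero L] {S : Set ℕ} {R : Type} [CommRing R] {H : Type} [AddCommGroup H]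
    [Module R H] {T : PIdx S → Module.End R H} (hT : ∀ i j, Commute (T i) (T j))
    (F : heckeAlgebra L 2 S →+* Module.End R H) (hF : ∀ ℓ, F (genS L S ℓ) = T ℓ)
    (t : MvPolynomial (PIdx S) ℤ) : F (evS L S t) = cev (R := ℤ) T hT t := by
  induction t using MvPolynomial.induction_on with
  | C a =>
    rw [cev_C, ← MvPolynomial.algebraMap_eq, AlgHom.commutes, algebraMap_int_eq, algebraMap_int_eq,
      eq_intCast, eq_intCast, map_intCast]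
  | add p q hp hq => rw [map_add, map_add, map_add, hp, hq]
  | mul_X p i hp => rw [map_mul, map_mul, map_mul, hp, evS_X0, hF, cev_X]

/-- the normalised operators commute (without completeness hypotheses). -/
theorem hT_comm {M : ℕ} [NeZero M] {S : Set ℕ} {R : Type} [CommRing R] [IsLocalRing R]
    (η ε : (ZMod M)ˣ →* Rˣ) (θ : PIdx S → ResidueField R) (i j : PIdx S) :
    Commute (hT η ε S θ i) (hT η ε S θ j) := mT_commute _ _ _ i j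

section Main

variable {M M' Q₀ L m p : ℕ} [NeZero M'] [NeZero Q₀] [NeZero L]
  (D : ALData L m p) (hpM : ¬ p ∣ M) (h : M * p = M') (hQM : Q₀ ∣ M) (hQM' : Q₀ ∣ M')
  (hL : M' * Q₀ = L) {S : Set ℕ} (hS : ∀ ℓ : ℕ, ℓ.Prime → ℓ ∣ M' → ℓ ∈ S)
  {𝒪 : Type} [CommRing 𝒪] [IsDomain 𝒪] [IsDiscreteValuationRing 𝒪]
  [IsAdicComplete (maximalIdeal 𝒪) 𝒪] [Finite (ResidueField 𝒪)] [CharZero 𝒪]
  {Δ : Type} [CommGroup Δ] [Finite Δ] [IsLocalRing (MonoidAlgebra 𝒪 Δ)]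
  [IsLocalHom (algebraMap 𝒪 (MonoidAlgebra 𝒪 Δ))]
  (τ₀ : (ZMod Q₀)ˣ →* Δ) [Fact (HasIntegralStructure L 2)]

include D hQM hL hS in
/-- **(NEWREL)**, with the hypotheses of `HeckeRep.exists_act`. -/
theorem cev_newKer {θ₀ : PIdx S → ResidueField 𝒪} (hne : S41hm.StrongNonEis S θ₀)
    (hη : ∀ u, residue (MonoidAlgebra 𝒪 Δ)
      (taut 𝒪 (τ₀.comp (ZMod.unitsMap hQM')) u : MonoidAlgebra 𝒪 Δ) = 1)
    (hG : Good M' ((taut 𝒪 (τ₀.comp (ZMod.unitsMap hQM'))) ^ 2) S (thMap (MonoidAlgebra 𝒪 Δ) θ₀))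
    (hηη : infl (Dvd.intro p h) (taut 𝒪 (τ₀.comp (ZMod.unitsMap hQM))) =
      taut 𝒪 (τ₀.comp (ZMod.unitsMap hQM')))
    (hpS : p ∈ S) (t : MvPolynomial (PIdx S) ℤ) (ht : ∀ f ∈ pnew D, opt L t f = 0)
    (x : Hm M' ((taut 𝒪 (τ₀.comp (ZMod.unitsMap hQM'))) ^ 2) (MonoidAlgebra 𝒪 Δ) S
      (thMap (MonoidAlgebra 𝒪 Δ) θ₀))
    (h1 : j1 D.hq hpM h hηη (thMap (MonoidAlgebra 𝒪 Δ) θ₀) hpS x = 0)
    (h2 : j2 D.hq hpM h hηη (thMap (MonoidAlgebra 𝒪 Δ) θ₀) hpS x = 0) :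
    cev (R := ℤ) (hT (taut 𝒪 (τ₀.comp (ZMod.unitsMap hQM')))
      ((taut 𝒪 (τ₀.comp (ZMod.unitsMap hQM'))) ^ 2) S (thMap (MonoidAlgebra 𝒪 Δ) θ₀))
      (hT_comm _ _ _) t x = 0 := by
  have := Fintype.ofFinite Δ
  have hnoeth := isNoetherianRing_groupRing (𝒪 := 𝒪) (Δ := Δ)
  have hcomp := isAdicComplete_groupRing (𝒪 := 𝒪) (Δ := Δ)
  obtain ⟨ι, hι⟩ := RT.exists_embedding 𝒪
  obtain ⟨ℓ₀, e1, e2, e3⟩ := exists_aux hne (M := M')
  refine relation_newKer D hpM h hQM hQM' hL hS τ₀ ι hι hη hG t ht e1 e2 ?_ hηη hpS x h1 h2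
  intro h4
  apply e3
  have h5 : ResidueField.map (algebraMap 𝒪 (MonoidAlgebra 𝒪 Δ)) (θ₀ ℓ₀) =
      ResidueField.map (algebraMap 𝒪 (MonoidAlgebra 𝒪 Δ))
        ((((ℓ₀.1 : ℕ) : ℕ) : ResidueField 𝒪) + 1) := by
    rw [map_add, map_one, map_natCast]; exact h4
  exact (ResidueField.map (algebraMap 𝒪 (MonoidAlgebra 𝒪 Δ))).injective h5

include D hQM hL hS in
/-- **(NEWREL)** for the action of the localised Hecke algebra of level `L = M' Q₀`. -/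
theorem act_newKer {θ₀ : PIdx S → ResidueField 𝒪} (hne : S41hm.StrongNonEis S θ₀)
    (hη : ∀ u, residue (MonoidAlgebra 𝒪 Δ)
      (taut 𝒪 (τ₀.comp (ZMod.unitsMap hQM')) u : MonoidAlgebra 𝒪 Δ) = 1)
    (hG : Good M' ((taut 𝒪 (τ₀.comp (ZMod.unitsMap hQM'))) ^ 2) S (thMap (MonoidAlgebra 𝒪 Δ) θ₀))
    (hηη : infl (Dvd.intro p h) (taut 𝒪 (τ₀.comp (ZMod.unitsMap hQM))) =
      taut 𝒪 (τ₀.comp (ZMod.unitsMap hQM')))
    (hpS : p ∈ S) (θ : heckeAlgebra L 2 S →+* ResidueField 𝒪)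
    (act : heckeLocal L S 𝒪 θ →+*
      Module.End (MonoidAlgebra 𝒪 Δ) (Hm M' ((taut 𝒪 (τ₀.comp (ZMod.unitsMap hQM'))) ^ 2)
        (MonoidAlgebra 𝒪 Δ) S (thMap (MonoidAlgebra 𝒪 Δ) θ₀)))
    (hact : ∀ ℓ, act (heckeLocal.π L S 𝒪 θ (genS L S ℓ)) =
      hT (taut 𝒪 (τ₀.comp (ZMod.unitsMap hQM'))) ((taut 𝒪 (τ₀.comp (ZMod.unitsMap hQM'))) ^ 2) S
        (thMap (MonoidAlgebra 𝒪 Δ) θ₀) ℓ)
    (a : heckeAlgebra L 2 S)
    (ha : ∀ f ∈ pnew D, (a : Module.End ℂ (CuspForm (Gamma0 L) 2)) f = 0)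
    (x : Hm M' ((taut 𝒪 (τ₀.comp (ZMod.unitsMap hQM'))) ^ 2) (MonoidAlgebra 𝒪 Δ) S
      (thMap (MonoidAlgebra 𝒪 Δ) θ₀))
    (h1 : j1 D.hq hpM h hηη (thMap (MonoidAlgebra 𝒪 Δ) θ₀) hpS x = 0)
    (h2 : j2 D.hq hpM h hηη (thMap (MonoidAlgebra 𝒪 Δ) θ₀) hpS x = 0) :
    act (heckeLocal.π L S 𝒪 θ a) x = 0 := by
  obtain ⟨t, rfl⟩ := exists_evS a
  rw [← RingHom.comp_apply act (heckeLocal.π L S 𝒪 θ), act_evS (hT_comm _ _ _) _ hact]
  refine cev_newKer D hpM h hQM hQM' hL hS τ₀ hne hη hG hηη hpS t (fun f hf => ?_) x h1 h2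
  rw [opt, ← val_evS]
  exact ha f hf

end Main

end Fermat.Agent.NewRel

end
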