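import Fermat.Agent.NewRel.Act

/-!
# Relations on the `p`-new part, trivial character

`cev_newKer_triv`, `act_newKer_triv`: an element of the Hecke algebra of level `M' = M p` which
kills the `p`-new part of `S₂(Γ₀(M'))` kills the kernel of `j1` and `j2` on `H¹(Γ₀(M'), 𝒪)_𝔪`.
-/

set_option autoImplicit false
set_option linter.unusedSectionVars false

noncomputable section

open CongruenceSubgroup
open scoped MatrixGroups

namespace Fermat.Agent.NewRel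

open IsLocalRing TwHecke HeckePar TwExact HeckeRep GalRep HSide CuspForm
open FermatAgent.HeckeEigen (heckeOp heckeOp_comm)
open Oldforms (ALData)

/-- for trivial characters, push-forward along an injective map is injective. -/
theorem pushH_eq_zero {M : ℕ} {R R' : Type*} [CommRing R] [CommRing R'] {f : R →+* R'}
    (hf : Function.Injective f) {ε : (ZMod M)ˣ →* Rˣ} {ε' : (ZMod M)ˣ →* R'ˣ}
    (hε : ∀ u, ((ε' u : R'ˣ) : R') = f ((ε u : Rˣ) : R)) (h1 : ε' = 1) {z : HM M ε R}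
    (hz : pushH f hε z = 0) : z = 0 := by
  induction z using H1.ind with
  | h c =>
    rw [pushH_mk, H1.mk_eq_zero] at hz
    obtain ⟨b, hb⟩ := hz
    have h2 : c = 0 := by
      ext g
      apply hf
      have h3 := congrArg (fun d : ZM M ε' R' => d g) hb
      simp only [cobd_apply, pushZ_apply] at h3
      rw [← h3, h1]
      show ((1 : R'ˣ) : R') • b - b = f 0
      rw [Units.val_one, one_smul, sub_self, map_zero]
    rw [h2, H1.mk_zero]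

section Torsion

variable {M : ℕ} [NeZero M] {S : Set ℕ} {R : Type} [CommRing R] [IsLocalRing R]
  [IsNoetherianRing R] [IsAdicComplete (maximalIdeal R) R]

/-- from the relation after multiplication by an Eisenstein factor. -/
theorem cev_eq_zero_of_eis {η : (ZMod M)ˣ →* Rˣ} {θ : PIdx S → ResidueField R}
    (hη : ∀ u, residue R (η u : R) = 1) (t : MvPolynomial (PIdx S) ℤ)
    {ℓ₀ : PIdx S} (hθ : θ ℓ₀ ≠ (((ℓ₀.1 : ℕ) : ℕ) : ResidueField R) + 1) (hG : Good M (η ^ 2) S θ)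
    (x : Hm M (η ^ 2) R S θ)
    (h : cev (R := ℤ) (nop η S) (nop_commute η)
        (t * (MvPolynomial.X ℓ₀ - MvPolynomial.C (((ℓ₀.1 : ℕ) : ℤ) + 1)))
          (x : HM M (η ^ 2) R) = 0) :
    cev (R := ℤ) (hT η (η ^ 2) S θ) (hT_comm η (η ^ 2) θ) t x = 0 := by
  set s : MvPolynomial (PIdx S) ℤ := MvPolynomial.X ℓ₀ - MvPolynomial.C (((ℓ₀.1 : ℕ) : ℤ) + 1)
    with hs
  have hfree := hG.free
  have h3 : cev (R := ℤ) (hT η (η ^ 2) S θ) (hT_comm η (η ^ 2) θ) (t * s) x = 0 := by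
    apply Subtype.ext
    have h2 : ((cev (R := ℤ) (hT η (η ^ 2) S θ) (hT_comm η (η ^ 2) θ) (t * s) x :
        Hm M (η ^ 2) R S θ) : HM M (η ^ 2) R) =
        cev (R := ℤ) (nop η S) (nop_commute η) (t * s) (x : HM M (η ^ 2) R) :=
      coe_cevZ_mT θ _ _ _ _
    rw [h2, h]
    rfl
  rw [mul_comm, map_mul, Module.End.mul_apply, cevZ_eq] at h3
  have hloc := isLocalAt_hT (M := M) (S := S) (ε := η ^ 2) (θ := θ) hη
    (MvPolynomial.map (Int.castRingHom R) s) (by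
      rw [hs, map_sub, MvPolynomial.map_X, MvPolynomial.map_C, map_sub, evk_X, evk_C]
      intro h0
      apply hθ
      rw [sub_eq_zero] at h0
      rw [h0]
      simp)
  exact hloc.1 (h3.trans (map_zero _).symm)

end Torsion

section Triv

variable {M M' m p : ℕ} [NeZero M']
  (D : ALData M' m p) (hpM : ¬ p ∣ M) (h : M * p = M')
  {S : Set ℕ} (hS : ∀ ℓ : ℕ, ℓ.Prime → ℓ ∣ M' → ℓ ∈ S)
  {𝒪 : Type} [CommRing 𝒪] [IsDomain 𝒪]

theorem one_sq_push {N : ℕ} (ι : 𝒪 →+* ℂ) (u : (ZMod N)ˣ) :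
    ((((1 : (ZMod N)ˣ →* ℂˣ) ^ 2) u : ℂˣ) : ℂ) =
      ι ((((1 : (ZMod N)ˣ →* 𝒪ˣ) ^ 2) u : 𝒪ˣ) : 𝒪) := by
  rw [MonoidHom.pow_apply, MonoidHom.pow_apply, MonoidHom.one_apply, MonoidHom.one_apply, one_pow,
    one_pow, Units.val_one, Units.val_one, map_one]

include D hS in
theorem cev_triv_eis (ι : 𝒪 →+* ℂ) (hι : Function.Injective ι)
    (t : MvPolynomial (PIdx S) ℤ) (ht : ∀ f ∈ pnew D, opt M' t f = 0)
    {ℓ₀ : PIdx S} (hℓ₀ : ((ℓ₀.1 : ℕ) : ZMod M') = 1) (hodd : Odd (ℓ₀.1 : ℕ))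
    (hηη : infl (Dvd.intro p h) ((1 : (ZMod M)ˣ →* 𝒪ˣ) ^ 2) = (1 : (ZMod M')ˣ →* 𝒪ˣ) ^ 2)
    (x : HM M' ((1 : (ZMod M')ˣ →* 𝒪ˣ) ^ 2) 𝒪)
    (h1 : tg D.hq hpM h 𝒪 hηη x = 0) (h2 : tB D.hq hpM h 𝒪 hηη x = 0) :
    cev (R := ℤ) (nop (1 : (ZMod M')ˣ →* 𝒪ˣ) S) (nop_commute (1 : (ZMod M')ˣ →* 𝒪ˣ))
        (t * (MvPolynomial.X ℓ₀ - MvPolynomial.C (((ℓ₀.1 : ℕ) : ℤ) + 1))) x = 0 := by
  refine pushH_eq_zero hι (one_sq_push ι) (by ext u; simp) ?_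
  rw [cevZ_natural (nop_commute (1 : (ZMod M')ˣ →* 𝒪ˣ)) (nop_commute (1 : (ZMod M')ˣ →* ℂˣ))
    (pushH ι (one_sq_push ι)) (fun ℓ y => by
      rw [nop, nop, LinearMap.smul_apply, LinearMap.smul_apply, pushH_smul, pushH_heckeP]
      congr 1
      rw [MonoidHom.one_apply, MonoidHom.one_apply, Units.val_one, Units.val_one, map_one])]
  set y := pushH ι (one_sq_push (N := M') ι) x with hy
  have hfl : Fact (ℓ₀.1 : ℕ).Prime := ⟨ℓ₀.1.2⟩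
  have hχχ : infl (Dvd.intro p h) ((1 : (ZMod M)ˣ →* ℂˣ) ^ 2) = (1 : (ZMod M')ˣ →* ℂˣ) ^ 2 :=
    infl_sq _ (by ext u; rfl)
  have hy1 : tg D.hq hpM h ℂ hχχ y = 0 := by
    have e := pushH_tg ι D.hq hpM h hηη hχχ (one_sq_push ι) (one_sq_push ι) x
    rw [h1, map_zero] at e
    exact e
  have hy2 : tB D.hq hpM h ℂ hχχ y = 0 := by
    have e := pushH_tB ι D.hq hpM h hηη hχχ (one_sq_push ι) (one_sq_push ι) x
    rw [h2, map_zero] at e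
    exact e
  have hs : cev (R := ℤ) (nop (1 : (ZMod M')ˣ →* ℂˣ) S) (nop_commute (1 : (ZMod M')ˣ →* ℂˣ))
        (MvPolynomial.X ℓ₀ - MvPolynomial.C (((ℓ₀.1 : ℕ) : ℤ) + 1)) y =
      heckeH M' (ℓ₀.1 : ℕ) ((1 : (ZMod M')ˣ →* ℂˣ) ^ 2) ℂ y - (((ℓ₀.1 : ℕ) : ℂ) + 1) • y := by
    rw [map_sub, cev_X, cev_C, LinearMap.sub_apply, algebraMap_int_eq, eq_intCast,
      Module.End.intCast_apply, nop, MonoidHom.one_apply, Units.val_one, one_smul]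
    congr 1
    rw [← Int.cast_smul_eq_zsmul ℂ]
    push_cast
    rfl
  have hlp : (ℓ₀.1 : ℕ) ≠ p := fun h0 => ℓ₀.2 (h0 ▸ hS p D.hq (Dvd.intro_left M h))
  rw [map_mul, Module.End.mul_apply, hs]
  have : NeZero (1 : ℕ) := ⟨one_ne_zero⟩
  refine relation_C D hpM h (one_dvd M) (one_dvd M') (mul_one M') hS (1 : (ZMod 1)ˣ →* ℂˣ)
    (η := (1 : (ZMod M)ˣ →* ℂˣ)) (η' := (1 : (ZMod M')ˣ →* ℂˣ)) (by ext u; rfl) (by ext u; rfl)
    hχχ t ht _ ?_ ?_ ?_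
  · exact heckeH_sub_mem_par (A := ℂ) hℓ₀ hodd
      (isUnit_iff_ne_zero.mpr (by exact_mod_cast ℓ₀.1.2.ne_zero)) y
  · rw [map_sub, map_smul]
    have e := tg_heckeH (p := (ℓ₀.1 : ℕ)) (A := ℂ) D.hq hpM h hχχ hlp y
    rw [hy1, map_zero] at e
    rw [hy1, smul_zero, sub_zero]
    exact e
  · rw [map_sub, map_smul]
    have e := tB_heckeH (p := (ℓ₀.1 : ℕ)) (A := ℂ) D.hq hpM h hχχ hlp y
    rw [hy2, map_zero] at e
    rw [hy2, smul_zero, sub_zero]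
    exact e

variable [IsDiscreteValuationRing 𝒪]
  [IsAdicComplete (maximalIdeal 𝒪) 𝒪] [Finite (ResidueField 𝒪)] [CharZero 𝒪]

include D hS in
/-- **(NEWREL)**, trivial character. -/
theorem cev_newKer_triv {θ₀ : PIdx S → ResidueField 𝒪} (hne : S41hm.StrongNonEis S θ₀)
    (hηη : infl (Dvd.intro p h) (1 : (ZMod M)ˣ →* 𝒪ˣ) = (1 : (ZMod M')ˣ →* 𝒪ˣ))
    (hG : Good M' ((1 : (ZMod M')ˣ →* 𝒪ˣ) ^ 2) S θ₀)
    (hpS : p ∈ S) (t : MvPolynomial (PIdx S) ℤ) (ht : ∀ f ∈ pnew D, opt M' t f = 0)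
    (x : Hm M' ((1 : (ZMod M')ˣ →* 𝒪ˣ) ^ 2) 𝒪 S θ₀)
    (h1 : j1 D.hq hpM h hηη θ₀ hpS x = 0) (h2 : j2 D.hq hpM h hηη θ₀ hpS x = 0) :
    cev (R := ℤ) (hT (1 : (ZMod M')ˣ →* 𝒪ˣ) ((1 : (ZMod M')ˣ →* 𝒪ˣ) ^ 2) S θ₀)
      (hT_comm _ _ _) t x = 0 := by
  obtain ⟨ι, hι⟩ := RT.exists_embedding 𝒪
  obtain ⟨ℓ₀, e1, e2, e3⟩ := exists_aux hne (M := M')
  refine cev_eq_zero_of_eis (fun u => by rw [MonoidHom.one_apply, Units.val_one, map_one]) t e3 hG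
    x ?_
  refine cev_triv_eis D hpM h hS ι hι t ht e1 e2 (infl_sq _ hηη) x ?_ ?_
  · have e := congrArg Subtype.val h1
    rwa [coe_j1] at e
  · have e := congrArg Subtype.val h2
    rw [coe_j2, MonoidHom.one_apply, Units.val_one, one_smul] at e
    exact e

include D hS in
/-- **(NEWREL)** for the action of the localised Hecke algebra, trivial character. -/
theorem act_newKer_triv {θ₀ : PIdx S → ResidueField 𝒪} (hne : S41hm.StrongNonEis S θ₀)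
    (hηη : infl (Dvd.intro p h) (1 : (ZMod M)ˣ →* 𝒪ˣ) = (1 : (ZMod M')ˣ →* 𝒪ˣ))
    (hG : Good M' ((1 : (ZMod M')ˣ →* 𝒪ˣ) ^ 2) S θ₀) (hpS : p ∈ S)
    [Fact (HasIntegralStructure M' 2)] (θ : heckeAlgebra M' 2 S →+* ResidueField 𝒪)
    (act : heckeLocal M' S 𝒪 θ →+* Module.End 𝒪 (Hm M' ((1 : (ZMod M')ˣ →* 𝒪ˣ) ^ 2) 𝒪 S θ₀))
    (hact : ∀ ℓ, act (heckeLocal.π M' S 𝒪 θ (genS M' S ℓ)) =
      hT (1 : (ZMod M')ˣ →* 𝒪ˣ) ((1 : (ZMod M')ˣ →* 𝒪ˣ) ^ 2) S θ₀ ℓ)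
    (a : heckeAlgebra M' 2 S)
    (ha : ∀ f ∈ pnew D, (a : Module.End ℂ (CuspForm (Gamma0 M') 2)) f = 0)
    (x : Hm M' ((1 : (ZMod M')ˣ →* 𝒪ˣ) ^ 2) 𝒪 S θ₀)
    (h1 : j1 D.hq hpM h hηη θ₀ hpS x = 0) (h2 : j2 D.hq hpM h hηη θ₀ hpS x = 0) :
    act (heckeLocal.π M' S 𝒪 θ a) x = 0 := by
  obtain ⟨t, rfl⟩ := exists_evS a
  rw [← RingHom.comp_apply act (heckeLocal.π M' S 𝒪 θ), act_evS (hT_comm _ _ _) _ hact]
  refine cev_newKer_triv D hpM h hS hne hηη hG hpS t (fun f hf => ?_) x h1 h2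
  rw [opt, ← val_evS]
  exact ha f hf

end Triv

end Fermat.Agent.NewRel

end
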