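import Fermat.Agent.NewRel.Forms
import Fermat.Agent.HSide.Maps

/-!
# Relations on the `p`-new part of the twisted cohomology over `ℂ`

`relation_C`: an integral polynomial in the Hecke operators which kills the `p`-new part of
`S₂(Γ₀(M' Q₀))`, `M' = M p`, `p ∤ M`, kills (for the operators `ψ(ℓ) T_ℓ`) the kernel of the two
traces on the parabolic part of `H¹(Γ₀(M'), ℂ(ψ²))`, for every character `ψ` modulo `Q₀ ∣ M`.
-/

set_option autoImplicit false

noncomputable section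

open CongruenceSubgroup
open scoped MatrixGroups

namespace Fermat.Agent.NewRel

open TwHecke HeckePar TwExact HeckeRep GalRep HSide
open FermatAgent.HeckeEigen (heckeOp heckeOp_comm heckeOp_of_dvd heckeOp_of_not_dvd)
open Oldforms (ALData)

/-! ### `U² = ε(v)⁻¹` on the kernel of the two traces -/

section USq

variable {M M' v : ℕ} (hv : v.Prime) (hvM : ¬ v ∣ M) (h : M * v = M')
  {R : Type*} [CommRing R] {ε : (ZMod M)ˣ →* Rˣ} {ε' : (ZMod M')ˣ →* Rˣ}
  {A : Type*} [AddCommGroup A] [Module R A] (hε : infl (Dvd.intro v h) ε = ε')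

/-- on the kernel of the two traces `U² = ε(v)⁻¹`. -/
theorem heckeU_heckeU [Fact v.Prime] {x : HM M' ε' A} (h1 : tg hv hvM h A hε x = 0)
    (h2 : tB hv hvM h A hε x = 0) :
    heckeH M' v ε' A (heckeH M' v ε' A x) = wt ε (unitOf M v) • x := by
  subst h hε
  have : NeZero v := ⟨hv.ne_zero⟩
  have e2 : heckeH (M * v) v (infl (dvd_mul_right M v) ε) A x = -wq hv hvM ε A x :=
    heckeU_eq_neg_wq ε hv hvM h2
  have e1 := res_trd ε hv hvM x
  rw [show trd hv hvM ε A x = 0 from h1, map_zero] at e1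
  have e3 : (ε (unitOf M v) : R) • heckeH (M * v) v (infl (dvd_mul_right M v) ε) A
      (wq hv hvM ε A x) = -x := (neg_eq_of_add_eq_zero_right e1.symm).symm
  have e4 : heckeH (M * v) v (infl (dvd_mul_right M v) ε) A (wq hv hvM ε A x) =
      -(wt ε (unitOf M v) • x) := by
    rw [← smul_neg, ← e3, smul_smul, eps_wt, one_smul]
  show heckeH (M * v) v (infl (dvd_mul_right M v) ε) A
    (heckeH (M * v) v (infl (dvd_mul_right M v) ε) A x) = _
  rw [e2, map_neg, e4, neg_neg]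

end USq

/-! ### Linear algebra -/

section Alg

open Polynomial

theorem aeval_apply_of_smul {V : Type*} [AddCommGroup V] [Module ℂ V] {T : Module.End ℂ V} {z : ℂ}
    {v : V} (hv : T v = z • v) (P : ℂ[X]) : aeval (R := ℂ) T P v = P.eval z • v := by
  induction P using Polynomial.induction_on' with
  | add p q hp hq => rw [map_add, LinearMap.add_apply, hp, hq, eval_add, add_smul]
  | monomial n a =>
    have h1 : (T ^ n) v = z ^ n • v := by
      induction n with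
      | zero => simp
      | succ n ih => rw [pow_succ, Module.End.mul_apply, hv, map_smul, ih, smul_smul, pow_succ']
    rw [aeval_monomial, Module.End.mul_apply, h1, Module.algebraMap_end_apply, eval_monomial,
      mul_smul]

/-- if `U² x = x` and `P(1), P(-1) ≠ 0` then `x = P(U) x'` with `x'` in the span of `x, U x`. -/
theorem exists_preimage {V : Type*} [AddCommGroup V] [Module ℂ V] {U : Module.End ℂ V} {x : V}
    (hx : U (U x) = x) {P : ℂ[X]} (h1 : P.eval 1 ≠ 0) (h2 : P.eval (-1) ≠ 0) :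
    ∃ a b : ℂ, aeval (R := ℂ) U P (a • x + b • U x) = x := by
  have e1 : U (x + U x) = (1 : ℂ) • (x + U x) := by rw [map_add, hx, one_smul, add_comm]
  have e2 : U (x - U x) = (-1 : ℂ) • (x - U x) := by rw [map_sub, hx]; module
  have f1 := aeval_apply_of_smul e1 P
  have f2 := aeval_apply_of_smul e2 P
  refine ⟨(P.eval 1)⁻¹ / 2 + (P.eval (-1))⁻¹ / 2, (P.eval 1)⁻¹ / 2 - (P.eval (-1))⁻¹ / 2, ?_⟩
  have h3 : ((P.eval 1)⁻¹ / 2 + (P.eval (-1))⁻¹ / 2) • x +
      ((P.eval 1)⁻¹ / 2 - (P.eval (-1))⁻¹ / 2) • U x =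
      ((P.eval 1)⁻¹ / 2) • (x + U x) + ((P.eval (-1))⁻¹ / 2) • (x - U x) := by module
  rw [h3, map_add, map_smul, map_smul, f1, f2, smul_smul, smul_smul, div_mul_eq_mul_div,
    div_mul_eq_mul_div, inv_mul_cancel₀ h1, inv_mul_cancel₀ h2]
  module

end Alg

/-! ### The relation over `ℂ` -/

section Cx

open Polynomial

/-- the operator of an integral polynomial on cusp forms -/
abbrev opt (L : ℕ) [NeZero L] {S : Set ℕ} (t : MvPolynomial (PIdx S) ℤ) :
    Module.End ℂ (CuspForm (Gamma0 L) 2) :=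
  cev (R := ℤ) (fun i : PIdx S => heckeOp L 2 i.1) (fun i j => heckeOp_comm i.1 j.1) t

theorem cev_aeval_X {ι V : Type*} [AddCommGroup V] [Module ℂ V] (T : ι → Module.End ℂ V)
    (hT : ∀ i j, Commute (T i) (T j)) (i : ι) (P : ℂ[X]) :
    cev T hT (aeval (MvPolynomial.X i : MvPolynomial ι ℂ) P) = aeval (R := ℂ) (T i) P := by
  rw [← Polynomial.aeval_algHom_apply, cev_X]

theorem dch_prime {M Q₀ p : ℕ} (hQM : Q₀ ∣ M) (hp : p.Prime) (hpM : ¬ p ∣ M)
    (ψ : (ZMod Q₀)ˣ →* ℂˣ) :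
    TwES.dch ψ (p : ZMod Q₀) = ((ψ.comp (ZMod.unitsMap hQM)) (unitOf M (p : ℤ)) : ℂ) := by
  have hc : Nat.Coprime p M := (Nat.Prime.coprime_iff_not_dvd hp).mpr hpM
  have hu1 : IsUnit (((p : ℕ) : ℤ) : ZMod M) := by
    rw [Int.cast_natCast]
    exact (ZMod.isUnit_iff_coprime _ _).mpr hc
  have hu2 : (((ZMod.unitsMap hQM) (unitOf M ((p : ℕ) : ℤ)) : (ZMod Q₀)ˣ) : ZMod Q₀) =
      ((p : ℕ) : ZMod Q₀) := by
    rw [ZMod.unitsMap_def, Units.coe_map, MonoidHom.coe_coe, val_unitOf hu1, Int.cast_natCast,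
      map_natCast]
  rw [MonoidHom.comp_apply, TwES.dch, ← hu2, MulChar.ofUnitHom_coe]

variable {M M' Q₀ L m p : ℕ} [NeZero M'] [NeZero Q₀] [NeZero L]
  (D : ALData L m p) (hpM : ¬ p ∣ M) (h : M * p = M') (hQM : Q₀ ∣ M) (hQM' : Q₀ ∣ M')
  (hL : M' * Q₀ = L) {S : Set ℕ} (hS : ∀ ℓ : ℕ, ℓ.Prime → ℓ ∣ M' → ℓ ∈ S)
  (ψ : (ZMod Q₀)ˣ →* ℂˣ)

include D hpM h hQM hL in
omit [NeZero Q₀] [NeZero M'] [NeZero L] in
theorem not_dvd_m : ¬ p ∣ m := by
  intro hd
  have h1 : p * m = p * (M * Q₀) := by rw [← D.hN, ← hL, ← h]; ring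
  have h2 : m = M * Q₀ := Nat.eq_of_mul_eq_mul_left D.hq.pos h1
  rw [h2] at hd
  rcases D.hq.dvd_mul.mp hd with h3 | h3
  · exact hpM h3
  · exact hpM (h3.trans hQM)

include D hpM h hQM hL hS in
/-- **(NEWREL over `ℂ`)** classes with `U'² = 1`. -/
theorem relation_of_sq {η' : (ZMod M')ˣ →* ℂˣ} (hη' : η' = ψ.comp (ZMod.unitsMap hQM'))
    (t : MvPolynomial (PIdx S) ℤ) (ht : ∀ f ∈ pnew D, opt L t f = 0)
    (x : HM M' (η' ^ 2) ℂ) (hx : x ∈ HM.par M' (η' ^ 2) ℂ)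
    (hU : TwES.dch ψ (p : ZMod Q₀) • heckeP M' (η' ^ 2) ℂ D.qp
      (TwES.dch ψ (p : ZMod Q₀) • heckeP M' (η' ^ 2) ℂ D.qp x) = x) :
    cev (R := ℤ) (nop η' S) (nop_commute η') t x = 0 := by
  classical
  have hfact : Fact p.Prime := ⟨D.hq⟩
  obtain ⟨P, hP1, hP2, hP⟩ := exists_proj D (not_dvd_m D hpM h hQM hL)
  let pr : Option (PIdx S) → Nat.Primes := fun o => o.elim D.qp Subtype.val
  let T : Option (PIdx S) → Module.End ℂ (HM M' (η' ^ 2) ℂ) := fun i =>
    TwES.dch ψ ((pr i : ℕ) : ZMod Q₀) • heckeP M' (η' ^ 2) ℂ (pr i)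
  have hTc : ∀ i j, Commute (T i) (T j) := fun i j =>
    ((heckeP_commute M' _ ℂ (pr i) (pr j)).smul_left _).smul_right _
  set t' : MvPolynomial (PIdx S) ℂ := MvPolynomial.map (Int.castRingHom ℂ) t with ht'
  set Q : MvPolynomial (Option (PIdx S)) ℂ :=
    MvPolynomial.rename some t' * aeval (MvPolynomial.X none) P with hQ
  -- the relation holds on forms
  have hQ0 : cev (fun i => heckeOp L 2 (pr i)) (fun i j => heckeOp_comm (pr i) (pr j)) Q = 0 := by
    refine LinearMap.ext fun f => ?_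
    have e1 : cev (fun i => heckeOp L 2 (pr i)) (fun i j => heckeOp_comm (pr i) (pr j))
        (MvPolynomial.rename some t') = opt L t := by
      rw [HeckeRep.cev_rename some (fun i : PIdx S => heckeOp L 2 i.1)
        (fun i j => heckeOp_comm i.1 j.1) _ _ (fun i => rfl), opt, cevZ_eq]
    have e2 : aeval (R := ℂ) (heckeOp L 2 (pr none)) P f ∈ pnew D := hP f
    rw [hQ, map_mul, Module.End.mul_apply, cev_aeval_X, e1, ht _ e2, LinearMap.zero_apply]
  -- the relation on cohomology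
  have hrel : ∀ x' : HM M' (η' ^ 2) ℂ, x' ∈ HM.par M' (η' ^ 2) ℂ → cev T hTc Q x' = 0 := by
    intro x' hx'
    exact TwES.relation_par hQM' ψ ((mul_comm Q₀ M').trans hL) (by subst hη'; ext u; rfl) pr T
      (fun _ => rfl) hTc hQ0 (TwES.bd_eq_zero_of_mem_par hx')
  obtain ⟨a, b, hab⟩ := exists_preimage (U := T none) (x := x) hU hP1 hP2
  have hmem : a • x + b • T none x ∈ HM.par M' (η' ^ 2) ℂ := by
    refine Submodule.add_mem _ (Submodule.smul_mem _ _ hx) (Submodule.smul_mem _ _ ?_)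
    exact Submodule.smul_mem _ _ (heckeH_mem_par p hx)
  have h3 := hrel _ hmem
  rw [hQ, map_mul, Module.End.mul_apply, cev_aeval_X, hab,
    HeckeRep.cev_rename some (nop η' S) (nop_commute η') T hTc (fun i => by
      show TwES.dch ψ ((i.1 : ℕ) : ZMod Q₀) • heckeP M' (η' ^ 2) ℂ i.1 = _
      rw [nop, dch_prime hQM' i.1.2 (fun hd => i.2 (hS _ i.1.2 hd)), hη'])] at h3
  rw [cevZ_eq]
  exact h3

variable {η : (ZMod M)ˣ →* ℂˣ} {η' : (ZMod M')ˣ →* ℂˣ} (hη : η = ψ.comp (ZMod.unitsMap hQM))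
  (hη' : η' = ψ.comp (ZMod.unitsMap hQM'))
  (hηη : infl (Dvd.intro p h) (η ^ 2) = η' ^ 2)

include hQM' hL hS hη hη' in
/-- **(NEWREL over `ℂ`)** classes in the kernel of the two traces. -/
theorem relation_C (t : MvPolynomial (PIdx S) ℤ) (ht : ∀ f ∈ pnew D, opt L t f = 0)
    (x : HM M' (η' ^ 2) ℂ) (hx : x ∈ HM.par M' (η' ^ 2) ℂ)
    (h1 : tg D.hq hpM h ℂ hηη x = 0) (h2 : tB D.hq hpM h ℂ hηη x = 0) :
    cev (R := ℤ) (nop η' S) (nop_commute η') t x = 0 := by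
  have hfact : Fact p.Prime := ⟨D.hq⟩
  refine relation_of_sq D hpM h hQM hQM' hL hS ψ hη' t ht x hx ?_
  have h3 := heckeU_heckeU D.hq hpM h hηη h1 h2
  rw [map_smul, smul_smul]
  show (_ * _) • heckeH M' p _ ℂ (heckeH M' p _ ℂ x) = x
  rw [h3, smul_smul, dch_prime hQM D.hq hpM ψ, ← hη, wt, MonoidHom.pow_apply, ← Units.val_mul,
    ← Units.val_mul, ← pow_two, mul_inv_cancel, Units.val_one, one_smul]

end Cx

end Fermat.Agent.NewRel

end
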