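import Fermat.Agent.LTF.MultOne
import Fermat.Agent.Mazur.TrivBound

/-!
# The `q`-new part of `S₂(Γ₀(N))`, `N = q M`, `q ∤ M`

* `pnew`: the kernel of the two traces;
* `exists_proj`: there is a polynomial `P` with `P(1), P(-1) ≠ 0` such that `P(U_q)` maps
  `S₂(Γ₀(N))` to the `q`-new part.
-/

set_option autoImplicit false

noncomputable section

open CongruenceSubgroup ModularFormClass FermatAgent.HeckeEigen Matrix.SpecialLinearGroup
open scoped MatrixGroups ModularForm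

namespace Fermat.Agent.NewRel

open Oldforms Oldforms.ALData Polynomial

variable {N M q : ℕ} (D : ALData N M q) [NeZero N]

/-- The `q`-new part of `S₂(Γ₀(N))`: the kernel of the two traces. -/
def pnew : Submodule ℂ (CuspForm (Gamma0 N) 2) :=
  LinearMap.ker D.tr ⊓ LinearMap.ker (D.tr ∘ₗ D.w 2)

theorem mem_pnew {f : CuspForm (Gamma0 N) 2} :
    f ∈ pnew D ↔ D.tr f = 0 ∧ D.tr (D.w 2 f) = 0 := by
  rw [pnew, Submodule.mem_inf, LinearMap.mem_ker, LinearMap.mem_ker, LinearMap.comp_apply]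

/-- `restr tr = 1 + U w` -/
theorem restr_tr' (f : CuspForm (Gamma0 N) 2) :
    restr N D.dvdMN 2 (D.tr f) = f + heckeOp N 2 D.qp (D.w 2 f) := by
  rw [restr_tr, trN_apply]

/-- `U = restr tr w - w` -/
theorem U_eq (f : CuspForm (Gamma0 N) 2) :
    heckeOp N 2 D.qp f = restr N D.dvdMN 2 (D.tr (D.w 2 f)) - D.w 2 f := by
  rw [restr_tr', D.w_w, add_sub_cancel_left]

/-- `tr restr = q + 1` -/
theorem tr_restr (g : CuspForm (Gamma0 M) 2) :
    D.tr (restr N D.dvdMN 2 g) = ((q : ℂ) + 1) • g := by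
  apply restr_injective D.dvdMN
  rw [restr_tr', LTF.MultOne.w_restr, LTF.MultOne.Vraw_eq, map_smul, map_smul]
  have h := heckeOp_V_self 2 D.qp D.hN D.dvdMN g
  rw [show V 2 D.hq.ne_zero D.hN g = V 2 D.qp.2.ne_zero D.hN g from rfl, h, add_smul, one_smul,
    add_comm]

/-- `tr w restr = T_q` -/
theorem tr_w_restr [NeZero M] (hqM : ¬ q ∣ M) (g : CuspForm (Gamma0 M) 2) :
    D.tr (D.w 2 (restr N D.dvdMN 2 g)) = heckeOp M 2 D.qp g := by
  apply restr_injective D.dvdMN
  rw [restr_tr', D.w_w, LTF.MultOne.w_restr]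
  apply eq_of_qCoeff_eq
  intro n
  rw [qCoeff_add, qCoeff_Vraw, qCoeff_heckeOp_two, if_pos D.dvdqN, zero_mul, add_zero, coe_restr,
    coe_restr, qCoeff_heckeOp_two, if_neg hqM, add_comm]
  congr 1
  split_ifs with h
  · norm_num
  · rw [mul_zero]

theorem tr_U (f : CuspForm (Gamma0 N) 2) :
    D.tr (heckeOp N 2 D.qp f) = (q : ℂ) • D.tr (D.w 2 f) := by
  rw [U_eq, map_sub, tr_restr, add_smul, one_smul, add_sub_cancel_right]

theorem tr_w_U [NeZero M] (hqM : ¬ q ∣ M) (f : CuspForm (Gamma0 N) 2) :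
    D.tr (D.w 2 (heckeOp N 2 D.qp f)) = heckeOp M 2 D.qp (D.tr (D.w 2 f)) - D.tr f := by
  rw [U_eq, map_sub, map_sub, tr_w_restr D hqM, D.w_w]

/-- The factor attached to an eigenvalue `r` of `T_q`. -/
def fac (q : ℕ) (r : ℂ) : ℂ[X] := X ^ 2 - C r * X + C (q : ℂ)

theorem aeval_fac (r : ℂ) (f : CuspForm (Gamma0 N) 2) :
    aeval (R := ℂ) (heckeOp N 2 D.qp) (fac q r) f =
      heckeOp N 2 D.qp (heckeOp N 2 D.qp f) - r • heckeOp N 2 D.qp f + (q : ℂ) • f := by
  rw [fac, map_add, map_sub, map_mul, map_pow, aeval_X, aeval_C, aeval_C, LinearMap.add_apply,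
    LinearMap.sub_apply, pow_two, Module.End.mul_apply, Module.End.mul_apply,
    Module.algebraMap_end_apply, Module.algebraMap_end_apply]

theorem tr_fac [NeZero M] (hqM : ¬ q ∣ M) (r : ℂ) (f : CuspForm (Gamma0 N) 2) :
    D.tr (aeval (R := ℂ) (heckeOp N 2 D.qp) (fac q r) f) =
      aeval (R := ℂ) (heckeOp M 2 D.qp) (X - C r) (D.tr (heckeOp N 2 D.qp f)) := by
  rw [aeval_fac, map_add, map_sub, map_smul, map_smul, map_sub, aeval_X, aeval_C,
    LinearMap.sub_apply, Module.algebraMap_end_apply, tr_U, tr_U, tr_w_U D hqM, map_smul]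
  module

theorem tr_w_fac [NeZero M] (hqM : ¬ q ∣ M) (r : ℂ) (f : CuspForm (Gamma0 N) 2) :
    D.tr (D.w 2 (aeval (R := ℂ) (heckeOp N 2 D.qp) (fac q r) f)) =
      aeval (R := ℂ) (heckeOp M 2 D.qp) (X - C r) (D.tr (D.w 2 (heckeOp N 2 D.qp f))) := by
  rw [aeval_fac, map_add, map_sub, map_smul, map_smul, map_add, map_sub, map_smul, map_smul,
    map_sub, aeval_X, aeval_C, LinearMap.sub_apply, Module.algebraMap_end_apply, tr_w_U D hqM,
    tr_w_U D hqM, tr_U]
  module

/-- The product of the factors. -/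
def facs (q : ℕ) (s : Multiset ℂ) : ℂ[X] := (s.map (fac q)).prod

theorem tr_facs [NeZero M] (hqM : ¬ q ∣ M) (s : Multiset ℂ) : ∀ f : CuspForm (Gamma0 N) 2,
    D.tr (aeval (R := ℂ) (heckeOp N 2 D.qp) (facs q s) f) =
      aeval (R := ℂ) (heckeOp M 2 D.qp) (s.map fun r => X - C r).prod
        (D.tr ((heckeOp N 2 D.qp ^ s.card) f)) ∧
    D.tr (D.w 2 (aeval (R := ℂ) (heckeOp N 2 D.qp) (facs q s) f)) =
      aeval (R := ℂ) (heckeOp M 2 D.qp) (s.map fun r => X - C r).prod
        (D.tr (D.w 2 ((heckeOp N 2 D.qp ^ s.card) f))) := by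
  induction s using Multiset.induction_on with
  | empty => intro f; simp [facs]
  | cons r s ih =>
    intro f
    have h1 : aeval (R := ℂ) (heckeOp N 2 D.qp) (facs q (r ::ₘ s)) f =
        aeval (R := ℂ) (heckeOp N 2 D.qp) (fac q r)
          (aeval (R := ℂ) (heckeOp N 2 D.qp) (facs q s) f) := by
      rw [facs, Multiset.map_cons, Multiset.prod_cons, map_mul, Module.End.mul_apply]
      rfl
    have h2 : heckeOp N 2 D.qp (aeval (R := ℂ) (heckeOp N 2 D.qp) (facs q s) f) =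
        aeval (R := ℂ) (heckeOp N 2 D.qp) (facs q s) (heckeOp N 2 D.qp f) := by
      rw [← Module.End.mul_apply, ← Module.End.mul_apply]
      congr 1
      have := (Commute.all (X : ℂ[X]) (facs q s)).map (aeval (R := ℂ) (heckeOp N 2 D.qp))
      rw [aeval_X] at this
      exact this.eq
    have h3 : (heckeOp N 2 D.qp ^ (r ::ₘ s).card) f =
        (heckeOp N 2 D.qp ^ s.card) (heckeOp N 2 D.qp f) := by
      rw [Multiset.card_cons, pow_succ, Module.End.mul_apply]
    obtain ⟨i1, i2⟩ := ih (heckeOp N 2 D.qp f)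
    constructor
    · rw [h1, tr_fac D hqM, h2, i1, h3, Multiset.map_cons, Multiset.prod_cons, map_mul,
        Module.End.mul_apply]
    · rw [h1, tr_w_fac D hqM, h2, i2, h3, Multiset.map_cons, Multiset.prod_cons, map_mul,
        Module.End.mul_apply]

/-- The trivial bound for the eigenvalues of `T_q`. -/
theorem norm_lt_of_eigen (hqM : ¬ q ∣ M) [NeZero M] {r : ℂ} {f : CuspForm (Gamma0 M) 2}
    (hf : f ≠ 0) (h : heckeOp M 2 D.qp f = r • f) : ‖r‖ < q + 1 := by
  refine MZ.norm_lt_succ D.hq.two_le f hf r fun τ => ?_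
  have h1 := congrArg (fun g : CuspForm (Gamma0 M) 2 => g τ) h
  rw [heckeOp_of_not_dvd (p := D.qp) hqM] at h1
  exact h1

theorem eval_fac_ne {r : ℂ} (hr : ‖r‖ < q + 1) {z : ℂ} (hz : z * z = 1) :
    (fac q r).eval z ≠ 0 := by
  intro h
  rw [fac, eval_add, eval_sub, eval_mul, eval_pow, eval_X, eval_C, eval_C, pow_two, hz] at h
  have h1 : r * z = (q : ℂ) + 1 := by linear_combination -h
  have hz1 : ‖z‖ = 1 := by
    have h2 := congrArg norm hz
    rw [norm_mul, norm_one] at h2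
    nlinarith [norm_nonneg z]
  have h3 := congrArg norm h1
  rw [norm_mul, hz1, mul_one] at h3
  have h4 : ‖(q : ℂ) + 1‖ = q + 1 := by
    rw [show (q : ℂ) + 1 = (((q : ℝ) + 1 : ℝ) : ℂ) by push_cast; rfl, Complex.norm_real,
      Real.norm_of_nonneg (by positivity)]
  rw [h3, h4] at hr
  exact lt_irrefl _ hr

/-- **The projection to the `q`-new part.** -/
theorem exists_proj (hqM : ¬ q ∣ M) : ∃ P : ℂ[X], P.eval 1 ≠ 0 ∧ P.eval (-1) ≠ 0 ∧
    ∀ f : CuspForm (Gamma0 N) 2, aeval (R := ℂ) (heckeOp N 2 D.qp) P f ∈ pnew D := by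
  have : NeZero M := D.neZero_M
  set T := heckeOp M 2 D.qp with hT
  have hfin : FiniteDimensional ℂ (CuspForm (Gamma0 M) 2) := inferInstance
  set s := (minpoly ℂ T).roots with hs
  have hmon : (minpoly ℂ T).Monic := minpoly.monic (Algebra.IsIntegral.isIntegral T)
  have hprod : (s.map fun r => X - C r).prod = minpoly ℂ T := by
    exact ((IsAlgClosed.splits (minpoly ℂ T)).eq_prod_roots_of_monic hmon).symm
  have hnorm : ∀ r ∈ s, ‖r‖ < q + 1 := by
    intro r hr
    have h1 : Module.End.HasEigenvalue T r :=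
      Module.End.hasEigenvalue_of_isRoot (isRoot_of_mem_roots hr)
    obtain ⟨f, hf⟩ := h1.exists_hasEigenvector
    exact norm_lt_of_eigen D hqM hf.2 hf.apply_eq_smul
  have hev : ∀ z : ℂ, z * z = 1 → (facs q s).eval z ≠ 0 := by
    intro z hz
    rw [facs, eval_multiset_prod, Multiset.map_map]
    intro h
    rw [Multiset.prod_eq_zero_iff, Multiset.mem_map] at h
    obtain ⟨r, hr, h⟩ := h
    exact eval_fac_ne (hnorm r hr) hz h
  refine ⟨facs q s, hev 1 (by norm_num), hev (-1) (by norm_num), fun f => ?_⟩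
  obtain ⟨i1, i2⟩ := tr_facs D hqM s f
  rw [hprod, ← hT, minpoly.aeval, LinearMap.zero_apply] at i1 i2
  exact (mem_pnew D).mpr ⟨i1, i2⟩

end Fermat.Agent.NewRel

end
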