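import Fermat.Agent.NewRel.Coh
import Fermat.Agent.HeckeRep.Act

/-!
# Relations on the `p`-new part of the `𝔪`-part of the twisted cohomology

`relation_newKer`: an integral polynomial in the Hecke operators which kills the `p`-new part of
`S₂(Γ₀(M' Q₀))` kills the kernel of the two traces on `H¹(Γ₀(M'), 𝒪[Δ](τ²))_𝔪`.
-/

set_option autoImplicit false
set_option linter.unusedSectionVars false

noncomputable section

open CongruenceSubgroup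
open scoped MatrixGroups

namespace Fermat.Agent.NewRel

open IsLocalRing TwHecke HeckePar TwExact HeckeRep GalRep HSide
open FermatAgent.HeckeEigen (heckeOp heckeOp_comm)
open Oldforms (ALData)

/-! ### Push-forward of coefficients -/

section Push

variable {R R' : Type*} [CommRing R] [CommRing R'] (f : R →+* R')

theorem pushH_eq {M : ℕ} {ε : (ZMod M)ˣ →* Rˣ} {ε' : (ZMod M)ˣ →* R'ˣ}
    (hε : ∀ u, ((ε' u : R'ˣ) : R') = f ((ε u : Rˣ) : R)) (x : HM M ε R) :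
    pushH f hε x = HM.mapₛ hε f.toSemilinearMap x := by
  induction x using H1.ind with
  | h c =>
    rw [pushH_mk, HM.mapₛ_mk]
    congr 1

theorem pushH_mem_par {M : ℕ} {ε : (ZMod M)ˣ →* Rˣ} {ε' : (ZMod M)ˣ →* R'ˣ}
    (hε : ∀ u, ((ε' u : R'ˣ) : R') = f ((ε u : Rˣ) : R)) {x : HM M ε R}
    (hx : x ∈ HM.par M ε R) : pushH f hε x ∈ HM.par M ε' R' := by
  rw [pushH_eq]
  exact HM.mapₛ_mem_par hε _ hx

variable {M M' q : ℕ} (hq : q.Prime) (hqM : ¬ q ∣ M) (h : M * q = M')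
  {ε : (ZMod M)ˣ →* Rˣ} {ε' : (ZMod M')ˣ →* Rˣ} {χ : (ZMod M)ˣ →* R'ˣ} {χ' : (ZMod M')ˣ →* R'ˣ}

theorem pushH_tg (hε : infl (Dvd.intro q h) ε = ε') (hχ : infl (Dvd.intro q h) χ = χ')
    (hs : ∀ u, (χ u : R') = f (ε u)) (hs' : ∀ u, (χ' u : R') = f (ε' u)) (x : HM M' ε' R) :
    tg hq hqM h R' hχ (pushH f hs' x) = pushH f hs (tg hq hqM h R hε x) := by
  rw [pushH_eq, pushH_eq, tg_mapₛ hq hqM h hε hχ hs hs']

theorem pushH_tB (hε : infl (Dvd.intro q h) ε = ε') (hχ : infl (Dvd.intro q h) χ = χ')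
    (hs : ∀ u, (χ u : R') = f (ε u)) (hs' : ∀ u, (χ' u : R') = f (ε' u)) (x : HM M' ε' R) :
    tB hq hqM h R' hχ (pushH f hs' x) = pushH f hs (tB hq hqM h R hε x) := by
  rw [pushH_eq, pushH_eq, tB_mapₛ hq hqM h hε hχ hs hs']

end Push

/-! ### Descent from `ℂ` to `𝒪[Δ]` -/

section Descent

variable {M : ℕ} [NeZero M] {𝒪 : Type*} [CommRing 𝒪] [IsDomain 𝒪]
  {Δ : Type*} [CommGroup Δ] [Fintype Δ]

/-- a class with vanishing push-forwards is torsion. -/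
theorem exists_smul_eq_zero_of_push (ι : 𝒪 →+* ℂ) (hι : Function.Injective ι)
    (τ : (ZMod M)ˣ →* Δ) (y : HM M ((taut 𝒪 τ) ^ 2) (MonoidAlgebra 𝒪 Δ))
    (h1 : ∀ χ : Δ →* ℂˣ, pushH (chiO ι χ) (push_taut_sq ι χ τ) y = 0) :
    ∃ n : 𝒪, n ≠ 0 ∧ (algebraMap 𝒪 (MonoidAlgebra 𝒪 Δ) n) • y = 0 := by
  obtain ⟨c, hc⟩ := H1.mk_surjective y
  have h2 : ∀ χ : Δ →* ℂˣ, ∃ b : ℂ, ∀ g : Gamma0 M, chiO ι χ (c g) =
      (chiO ι χ ((((taut 𝒪 τ) ^ 2) (aMap M g) : (MonoidAlgebra 𝒪 Δ)ˣ) : MonoidAlgebra 𝒪 Δ) - 1) *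
        b := by
    intro χ
    have h3 := h1 χ
    rw [← hc, pushH_mk, H1.mk_eq_zero] at h3
    obtain ⟨b, hb⟩ := h3
    refine ⟨b, fun g => ?_⟩
    have h4 := congrArg (fun c : ZM M ((χ.comp τ) ^ 2) ℂ => c g) hb
    simp only [cobd_apply, pushZ_apply] at h4
    rw [← h4, ← push_taut_sq ι χ τ, smul_eq_mul, sub_mul, one_mul]; rfl
  obtain ⟨n, b, hn, hb⟩ := exists_smul_eq_of_forall_char ι hι (fun g : Gamma0 M => c g)
    (fun g => ((((taut 𝒪 τ) ^ 2) (aMap M g) : (MonoidAlgebra 𝒪 Δ)ˣ) : MonoidAlgebra 𝒪 Δ)) h2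
  refine ⟨n, hn, ?_⟩
  rw [← hc, ← H1.mk_smul, H1.mk_eq_zero]
  refine ⟨b, ?_⟩
  ext1 g
  rw [cobd_apply, Z1.smul_apply, smul_eq_mul, smul_eq_mul (algebraMap 𝒪 (MonoidAlgebra 𝒪 Δ) n),
    ← Algebra.smul_def, hb, sub_mul, one_mul]
  rfl

end Descent

section Rel

variable {M M' Q₀ L m p : ℕ} [NeZero M'] [NeZero Q₀] [NeZero L]
  (D : ALData L m p) (hpM : ¬ p ∣ M) (h : M * p = M') (hQM : Q₀ ∣ M) (hQM' : Q₀ ∣ M')
  (hL : M' * Q₀ = L) {S : Set ℕ} (hS : ∀ ℓ : ℕ, ℓ.Prime → ℓ ∣ M' → ℓ ∈ S)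
  {𝒪 : Type} [CommRing 𝒪] [IsDomain 𝒪] {Δ : Type} [CommGroup Δ]
  (τ₀ : (ZMod Q₀)ˣ →* Δ)

omit [NeZero M'] [NeZero Q₀] [NeZero L] in
theorem infl_comp {G : Type*} [Group G] (ψ : (ZMod Q₀)ˣ →* G) (hMM : M ∣ M') :
    (ψ.comp (ZMod.unitsMap hQM)).comp (ZMod.unitsMap hMM) = ψ.comp (ZMod.unitsMap hQM') := by
  rw [MonoidHom.comp_assoc, ZMod.unitsMap_comp]

omit [NeZero M'] [NeZero Q₀] [NeZero L] in
theorem infl_sq_comp (ψ : (ZMod Q₀)ˣ →* ℂˣ) :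
    infl (Dvd.intro p h) ((ψ.comp (ZMod.unitsMap hQM)) ^ 2) =
      (ψ.comp (ZMod.unitsMap hQM')) ^ 2 := by
  refine infl_sq _ ?_
  exact infl_comp hQM hQM' ψ (Dvd.intro p h)

variable [Fintype Δ]

include D hQM hL hS in
/-- up to torsion, after multiplication by an Eisenstein factor. -/
theorem exists_smul_relation_new (ι : 𝒪 →+* ℂ) (hι : Function.Injective ι)
    (t : MvPolynomial (PIdx S) ℤ) (ht : ∀ f ∈ pnew D, opt L t f = 0)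
    {ℓ₀ : PIdx S} (hℓ₀ : ((ℓ₀.1 : ℕ) : ZMod M') = 1) (hodd : Odd (ℓ₀.1 : ℕ))
    (hηη : infl (Dvd.intro p h) ((taut 𝒪 (τ₀.comp (ZMod.unitsMap hQM))) ^ 2) =
      (taut 𝒪 (τ₀.comp (ZMod.unitsMap hQM'))) ^ 2)
    (x : HM M' ((taut 𝒪 (τ₀.comp (ZMod.unitsMap hQM'))) ^ 2) (MonoidAlgebra 𝒪 Δ))
    (h1 : tg D.hq hpM h (MonoidAlgebra 𝒪 Δ) hηη x = 0)
    (h2 : tB D.hq hpM h (MonoidAlgebra 𝒪 Δ) hηη x = 0) :
    ∃ n : 𝒪, n ≠ 0 ∧ (algebraMap 𝒪 (MonoidAlgebra 𝒪 Δ) n) •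
      cev (R := ℤ) (nop (taut 𝒪 (τ₀.comp (ZMod.unitsMap hQM'))) S)
        (nop_commute (taut 𝒪 (τ₀.comp (ZMod.unitsMap hQM'))))
        (t * (MvPolynomial.X ℓ₀ - MvPolynomial.C (((ℓ₀.1 : ℕ) : ℤ) + 1))) x = 0 := by
  have hM0 : NeZero M := ⟨fun h0 => NeZero.ne M' (by rw [← h, h0, zero_mul])⟩
  refine exists_smul_eq_zero_of_push ι hι (τ₀.comp (ZMod.unitsMap hQM')) _ fun χ => ?_
  rw [cevZ_natural (nop_commute (taut 𝒪 (τ₀.comp (ZMod.unitsMap hQM'))))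
    (nop_commute (χ.comp (τ₀.comp (ZMod.unitsMap hQM'))))
    (pushH (chiO ι χ) (push_taut_sq ι χ (τ₀.comp (ZMod.unitsMap hQM')))) (fun ℓ y => by
      rw [nop, nop, LinearMap.smul_apply, LinearMap.smul_apply, pushH_smul, pushH_heckeP,
        ← push_taut])]
  set y := pushH (chiO ι χ) (push_taut_sq ι χ (τ₀.comp (ZMod.unitsMap hQM'))) x with hy
  have hfl : Fact (ℓ₀.1 : ℕ).Prime := ⟨ℓ₀.1.2⟩
  have hχχ := infl_sq_comp h hQM hQM' (χ.comp τ₀)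
  -- the traces of `y` vanish
  have hy1 : tg D.hq hpM h ℂ hχχ y = 0 := by
    have e := pushH_tg (chiO ι χ) D.hq hpM h hηη hχχ
      (push_taut_sq ι χ (τ₀.comp (ZMod.unitsMap hQM)))
      (push_taut_sq ι χ (τ₀.comp (ZMod.unitsMap hQM'))) x
    rw [h1, map_zero] at e
    exact e
  have hy2 : tB D.hq hpM h ℂ hχχ y = 0 := by
    have e := pushH_tB (chiO ι χ) D.hq hpM h hηη hχχ
      (push_taut_sq ι χ (τ₀.comp (ZMod.unitsMap hQM)))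
      (push_taut_sq ι χ (τ₀.comp (ZMod.unitsMap hQM'))) x
    rw [h2, map_zero] at e
    exact e
  -- the Eisenstein factor
  have hs : cev (R := ℤ) (nop (χ.comp (τ₀.comp (ZMod.unitsMap hQM'))) S)
      (nop_commute (χ.comp (τ₀.comp (ZMod.unitsMap hQM'))))
        (MvPolynomial.X ℓ₀ - MvPolynomial.C (((ℓ₀.1 : ℕ) : ℤ) + 1)) y =
      heckeH M' (ℓ₀.1 : ℕ) ((χ.comp (τ₀.comp (ZMod.unitsMap hQM'))) ^ 2) ℂ y -
        (((ℓ₀.1 : ℕ) : ℂ) + 1) • y := by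
    rw [map_sub, cev_X, cev_C, LinearMap.sub_apply, algebraMap_int_eq, eq_intCast,
      Module.End.intCast_apply, nop, HeckeRep.unitOf_eq_one hℓ₀, map_one, Units.val_one, one_smul]
    congr 1
    rw [← Int.cast_smul_eq_zsmul ℂ]
    push_cast
    rfl
  have hlp : (ℓ₀.1 : ℕ) ≠ p := fun h0 => ℓ₀.2 (h0 ▸ hS p D.hq (Dvd.intro_left M h))
  rw [map_mul, Module.End.mul_apply, hs]
  refine relation_C D hpM h hQM hQM' hL hS (χ.comp τ₀) (η := (χ.comp τ₀).comp (ZMod.unitsMap hQM))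
    (η' := (χ.comp τ₀).comp (ZMod.unitsMap hQM')) rfl rfl hχχ t ht _ ?_ ?_ ?_
  · exact heckeH_sub_mem_par (A := ℂ) hℓ₀ hodd
      (isUnit_iff_ne_zero.mpr (by exact_mod_cast ℓ₀.1.2.ne_zero)) y
  · rw [map_sub, map_smul]
    have e := tg_heckeH (p := (ℓ₀.1 : ℕ)) (A := ℂ) D.hq hpM h hχχ hlp y
    rw [hy1, map_zero] at e
    rw [hy1, smul_zero, sub_zero]
    exact e
  · rw [map_sub, map_smul]
    have e := tB_heckeH (p := (ℓ₀.1 : ℕ)) (A := ℂ) D.hq hpM h hχχ hlp y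
    rw [hy2, map_zero] at e
    rw [hy2, smul_zero, sub_zero]
    exact e

variable [IsLocalRing (MonoidAlgebra 𝒪 Δ)] [IsNoetherianRing (MonoidAlgebra 𝒪 Δ)]
  [IsAdicComplete (maximalIdeal (MonoidAlgebra 𝒪 Δ)) (MonoidAlgebra 𝒪 Δ)]

include D hQM hL hS in
/-- **(NEWREL)** on the `𝔪`-part. -/
theorem relation_newKer (ι : 𝒪 →+* ℂ) (hι : Function.Injective ι)
    {θ : PIdx S → ResidueField (MonoidAlgebra 𝒪 Δ)}
    (hη : ∀ u, residue (MonoidAlgebra 𝒪 Δ)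
      (taut 𝒪 (τ₀.comp (ZMod.unitsMap hQM')) u : MonoidAlgebra 𝒪 Δ) = 1)
    (hG : Good M' ((taut 𝒪 (τ₀.comp (ZMod.unitsMap hQM'))) ^ 2) S θ)
    (t : MvPolynomial (PIdx S) ℤ) (ht : ∀ f ∈ pnew D, opt L t f = 0)
    {ℓ₀ : PIdx S} (hℓ₀ : ((ℓ₀.1 : ℕ) : ZMod M') = 1) (hodd : Odd (ℓ₀.1 : ℕ))
    (hθ : θ ℓ₀ ≠ (((ℓ₀.1 : ℕ) : ℕ) : ResidueField (MonoidAlgebra 𝒪 Δ)) + 1)
    (hηη : infl (Dvd.intro p h) (taut 𝒪 (τ₀.comp (ZMod.unitsMap hQM))) =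
      taut 𝒪 (τ₀.comp (ZMod.unitsMap hQM')))
    (hpS : p ∈ S)
    (x : Hm M' ((taut 𝒪 (τ₀.comp (ZMod.unitsMap hQM'))) ^ 2) (MonoidAlgebra 𝒪 Δ) S θ)
    (h1 : j1 D.hq hpM h hηη θ hpS x = 0) (h2 : j2 D.hq hpM h hηη θ hpS x = 0) :
    cev (R := ℤ) (hT (taut 𝒪 (τ₀.comp (ZMod.unitsMap hQM')))
      ((taut 𝒪 (τ₀.comp (ZMod.unitsMap hQM'))) ^ 2) S θ) (hT_commute _ _ θ) t x = 0 := by
  set s : MvPolynomial (PIdx S) ℤ := MvPolynomial.X ℓ₀ - MvPolynomial.C (((ℓ₀.1 : ℕ) : ℤ) + 1)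
    with hs
  have h1' : tg D.hq hpM h (MonoidAlgebra 𝒪 Δ) (infl_sq _ hηη)
      (x : HM M' ((taut 𝒪 (τ₀.comp (ZMod.unitsMap hQM'))) ^ 2) (MonoidAlgebra 𝒪 Δ)) = 0 := by
    have e := congrArg Subtype.val h1
    rwa [coe_j1] at e
  have h2' : tB D.hq hpM h (MonoidAlgebra 𝒪 Δ) (infl_sq _ hηη)
      (x : HM M' ((taut 𝒪 (τ₀.comp (ZMod.unitsMap hQM'))) ^ 2) (MonoidAlgebra 𝒪 Δ)) = 0 := by
    have e := congrArg Subtype.val h2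
    rw [coe_j2] at e
    have e2 := congrArg (fun z => ((((taut 𝒪 (τ₀.comp (ZMod.unitsMap hQM))) (unitOf M p))⁻¹ :
      (MonoidAlgebra 𝒪 Δ)ˣ) : MonoidAlgebra 𝒪 Δ) • z) e
    simp only [smul_smul, Units.inv_mul, one_smul] at e2
    rw [e2]
    exact smul_zero _
  obtain ⟨n, hn, hx⟩ := exists_smul_relation_new D hpM h hQM hQM' hL hS τ₀ ι hι t ht hℓ₀ hodd
    (infl_sq _ hηη) (x : HM M' _ _) h1' h2'
  have h3 : (algebraMap 𝒪 (MonoidAlgebra 𝒪 Δ) n) •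
      cev (R := ℤ) (hT (taut 𝒪 (τ₀.comp (ZMod.unitsMap hQM')))
        ((taut 𝒪 (τ₀.comp (ZMod.unitsMap hQM'))) ^ 2) S θ) (hT_commute _ _ θ) (t * s) x = 0 := by
    apply Subtype.ext
    have h4 : ((cev (R := ℤ) (hT (taut 𝒪 (τ₀.comp (ZMod.unitsMap hQM')))
        ((taut 𝒪 (τ₀.comp (ZMod.unitsMap hQM'))) ^ 2) S θ) (hT_commute _ _ θ) (t * s) x :
        Hm M' ((taut 𝒪 (τ₀.comp (ZMod.unitsMap hQM'))) ^ 2) (MonoidAlgebra 𝒪 Δ) S θ) :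
          HM M' ((taut 𝒪 (τ₀.comp (ZMod.unitsMap hQM'))) ^ 2) (MonoidAlgebra 𝒪 Δ)) =
        cev (R := ℤ) (nop (taut 𝒪 (τ₀.comp (ZMod.unitsMap hQM'))) S)
          (nop_commute (taut 𝒪 (τ₀.comp (ZMod.unitsMap hQM')))) (t * s)
          (x : HM M' ((taut 𝒪 (τ₀.comp (ZMod.unitsMap hQM'))) ^ 2) (MonoidAlgebra 𝒪 Δ)) :=
      coe_cevZ_mT θ _ _ _ _
    show (algebraMap 𝒪 (MonoidAlgebra 𝒪 Δ) n) • ((cev (R := ℤ)
      (hT (taut 𝒪 (τ₀.comp (ZMod.unitsMap hQM')))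
        ((taut 𝒪 (τ₀.comp (ZMod.unitsMap hQM'))) ^ 2) S θ) (hT_commute _ _ θ)
      (t * s) x : Hm M' ((taut 𝒪 (τ₀.comp (ZMod.unitsMap hQM'))) ^ 2) (MonoidAlgebra 𝒪 Δ) S θ) :
        HM M' ((taut 𝒪 (τ₀.comp (ZMod.unitsMap hQM'))) ^ 2) (MonoidAlgebra 𝒪 Δ)) = 0
    rw [h4, hx]
  have hfree := hG.free
  have h5 : cev (R := ℤ) (hT (taut 𝒪 (τ₀.comp (ZMod.unitsMap hQM')))
        ((taut 𝒪 (τ₀.comp (ZMod.unitsMap hQM'))) ^ 2) S θ) (hT_commute _ _ θ) (t * s) x = 0 := by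
    have hreg : ∀ r : MonoidAlgebra 𝒪 Δ, (algebraMap 𝒪 (MonoidAlgebra 𝒪 Δ) n) * r = 0 → r = 0 := by
      intro r hr
      rw [← Algebra.smul_def] at hr
      ext g
      have h6 := congrArg (fun f : MonoidAlgebra 𝒪 Δ => f.coeff g) hr
      simp only [MonoidAlgebra.coeff_smul, Finsupp.smul_apply, smul_eq_mul] at h6
      exact (mul_eq_zero.mp h6).resolve_left hn
    set b := Module.Free.chooseBasis (MonoidAlgebra 𝒪 Δ)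
      (Hm M' ((taut 𝒪 (τ₀.comp (ZMod.unitsMap hQM'))) ^ 2) (MonoidAlgebra 𝒪 Δ) S θ)
    apply b.ext_elem
    intro i
    rw [map_zero, Finsupp.zero_apply]
    apply hreg
    have h4 := congrArg (fun z => b.repr z i) h3
    rw [map_smul, Finsupp.smul_apply, smul_eq_mul, map_zero, Finsupp.zero_apply] at h4
    exact h4
  rw [mul_comm, map_mul, Module.End.mul_apply, cevZ_eq] at h5
  have hloc := isLocalAt_hT (M := M') (S := S)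
    (ε := (taut 𝒪 (τ₀.comp (ZMod.unitsMap hQM'))) ^ 2) (θ := θ) hη
    (MvPolynomial.map (Int.castRingHom (MonoidAlgebra 𝒪 Δ)) s) (by
      rw [hs, map_sub, MvPolynomial.map_X, MvPolynomial.map_C, map_sub, evk_X, evk_C]
      intro h0
      apply hθ
      rw [sub_eq_zero] at h0
      rw [h0]
      simp)
  exact hloc.1 (h5.trans (map_zero _).symm)

end Rel

end Fermat.Agent.NewRel

end
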